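import Mathlib

/-!
# Hermite normal form for `2 × 2` integer matrices and the cosets of `Γ₀(N)`

Every integer matrix `M` of positive determinant is uniquely `δ * !![a, b; 0, d]` with
`δ ∈ SL(2, ℤ)`, `0 < a`, `0 < d`, `0 ≤ b < d`.  We use this to attach to every coset
`x = g Γ₀(N)` and every `m ∣ N` the triple `tri N x m = hnf (!![m, 0; 0, 1] * g⁻¹)`, which
describes the translate `z ↦ F (m • g⁻¹ z)` of a level-one object `F`.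
-/

set_option autoImplicit false

open Matrix
open scoped MatrixGroups

namespace Fermat.Agent.Lib.CuspFamily

/-- The upper triangular matrix `!![a, b; 0, d]` attached to a triple `(a, b, d)`. -/
def UT (t : ℤ × ℤ × ℤ) : Matrix (Fin 2) (Fin 2) ℤ := !![t.1, t.2.1; 0, t.2.2]

/-- Normalised triples `(a, b, d)`: `0 < a`, `0 < d`, `0 ≤ b < d`. -/
def IsNorm (t : ℤ × ℤ × ℤ) : Prop := 0 < t.1 ∧ 0 < t.2.2 ∧ 0 ≤ t.2.1 ∧ t.2.1 < t.2.2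

theorem det_UT (t : ℤ × ℤ × ℤ) : (UT t).det = t.1 * t.2.2 := by
  simp [UT, Matrix.det_fin_two]

theorem UT_apply_zero_zero (t : ℤ × ℤ × ℤ) : UT t 0 0 = t.1 := rfl
theorem UT_apply_zero_one (t : ℤ × ℤ × ℤ) : UT t 0 1 = t.2.1 := rfl
theorem UT_apply_one_zero (t : ℤ × ℤ × ℤ) : UT t 1 0 = 0 := rfl
theorem UT_apply_one_one (t : ℤ × ℤ × ℤ) : UT t 1 1 = t.2.2 := rfl

/-- Entries of a product `A * UT t`. -/
theorem mul_UT_apply (A : Matrix (Fin 2) (Fin 2) ℤ) (t : ℤ × ℤ × ℤ) :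
    (A * UT t) 0 0 = A 0 0 * t.1 ∧ (A * UT t) 0 1 = A 0 0 * t.2.1 + A 0 1 * t.2.2 ∧
      (A * UT t) 1 0 = A 1 0 * t.1 ∧ (A * UT t) 1 1 = A 1 0 * t.2.1 + A 1 1 * t.2.2 := by
  simp [UT, Matrix.mul_apply, Fin.sum_univ_two]

/-- Entries of a product `UT t * A`. -/
theorem UT_mul_apply (t : ℤ × ℤ × ℤ) (A : Matrix (Fin 2) (Fin 2) ℤ) :
    (UT t * A) 0 0 = t.1 * A 0 0 + t.2.1 * A 1 0 ∧ (UT t * A) 0 1 = t.1 * A 0 1 + t.2.1 * A 1 1 ∧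
      (UT t * A) 1 0 = t.2.2 * A 1 0 ∧ (UT t * A) 1 1 = t.2.2 * A 1 1 := by
  simp [UT, Matrix.mul_apply, Fin.sum_univ_two]

theorem ext2 {A B : Matrix (Fin 2) (Fin 2) ℤ} (h00 : A 0 0 = B 0 0) (h01 : A 0 1 = B 0 1)
    (h10 : A 1 0 = B 1 0) (h11 : A 1 1 = B 1 1) : A = B := by
  ext i j
  fin_cases i <;> fin_cases j <;> assumption

theorem SL_det_eq (δ : SL(2, ℤ)) : δ 0 0 * δ 1 1 - δ 0 1 * δ 1 0 = 1 := by
  have h := δ.det_coe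
  rw [Matrix.det_fin_two] at h
  exact h

/-- Existence of the Hermite normal form. -/
theorem exists_hnf (M : Matrix (Fin 2) (Fin 2) ℤ) (hM : 0 < M.det) :
    ∃ (t : ℤ × ℤ × ℤ) (δ : SL(2, ℤ)), IsNorm t ∧ M = (δ : Matrix (Fin 2) (Fin 2) ℤ) * UT t := by
  obtain ⟨p, hp⟩ : ∃ p, p = M 0 0 := ⟨_, rfl⟩
  obtain ⟨q, hq⟩ : ∃ q, q = M 0 1 := ⟨_, rfl⟩
  obtain ⟨r, hr⟩ : ∃ r, r = M 1 0 := ⟨_, rfl⟩
  obtain ⟨s, hs⟩ : ∃ s, s = M 1 1 := ⟨_, rfl⟩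
  have hdet : p * s - q * r = M.det := by rw [Matrix.det_fin_two, hp, hq, hr, hs]
  obtain ⟨g, hg⟩ : ∃ g : ℤ, g = (Int.gcd p r : ℤ) := ⟨_, rfl⟩
  have hgpos : 0 < g := by
    have h0 : Int.gcd p r ≠ 0 := by
      intro h
      rw [Int.gcd_eq_zero_iff] at h
      rw [h.1, h.2] at hdet
      simp at hdet
      omega
    rw [hg]
    exact_mod_cast Nat.pos_of_ne_zero h0
  obtain ⟨p', hp'⟩ : g ∣ p := hg ▸ Int.gcd_dvd_left p r
  obtain ⟨r', hr'⟩ : g ∣ r := hg ▸ Int.gcd_dvd_right p r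
  obtain ⟨x, hx⟩ : ∃ x, x = Int.gcdA p r := ⟨_, rfl⟩
  obtain ⟨y, hy⟩ : ∃ y, y = Int.gcdB p r := ⟨_, rfl⟩
  have hbez : g = p * x + r * y := by rw [hg, hx, hy]; exact Int.gcd_eq_gcd_ab p r
  have h1 : p' * x + r' * y = 1 := by
    have h2 : g * (p' * x + r' * y) = g * 1 := by
      linear_combination (-1 : ℤ) * hbez - x * hp' - y * hr'
    exact mul_left_cancel₀ hgpos.ne' h2
  obtain ⟨d₀, hd₀⟩ : ∃ d₀, d₀ = p' * s - r' * q := ⟨_, rfl⟩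
  have hgd : g * d₀ = M.det := by
    rw [← hdet, hd₀]
    linear_combination (-s) * hp' + q * hr'
  have hd₀pos : 0 < d₀ := by
    by_contra hneg
    rw [not_lt] at hneg
    have : g * d₀ ≤ 0 := mul_nonpos_of_nonneg_of_nonpos hgpos.le hneg
    omega
  obtain ⟨b₀, hb₀⟩ : ∃ b₀, b₀ = x * q + y * s := ⟨_, rfl⟩
  obtain ⟨k, hk⟩ : ∃ k, k = b₀ / d₀ := ⟨_, rfl⟩
  obtain ⟨b, hb⟩ : ∃ b, b = b₀ % d₀ := ⟨_, rfl⟩
  have hbk : b + d₀ * k = b₀ := by rw [hb, hk]; exact Int.emod_add_mul_ediv b₀ d₀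
  have hdetδ : (!![p', p' * k - y; r', r' * k + x] : Matrix (Fin 2) (Fin 2) ℤ).det = 1 := by
    rw [Matrix.det_fin_two_of]
    linear_combination h1
  refine ⟨(g, b, d₀), ⟨!![p', p' * k - y; r', r' * k + x], hdetδ⟩,
    ⟨hgpos, hd₀pos, ?_, ?_⟩, ?_⟩
  · show 0 ≤ b
    rw [hb]; exact Int.emod_nonneg _ hd₀pos.ne'
  · show b < d₀
    rw [hb]; exact Int.emod_lt_of_pos _ hd₀pos
  · obtain ⟨e00, e01, e10, e11⟩ := mul_UT_apply
      (!![p', p' * k - y; r', r' * k + x] : Matrix (Fin 2) (Fin 2) ℤ) (g, b, d₀)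
    rw [Matrix.SpecialLinearGroup.coe_mk]
    refine ext2 ?_ ?_ ?_ ?_
    · rw [e00, ← hp]
      show p = p' * g
      linear_combination hp'
    · rw [e01, ← hq]
      show q = p' * b + (p' * k - y) * d₀
      linear_combination (-q) * h1 - p' * hbk - p' * hb₀ + y * hd₀
    · rw [e10, ← hr]
      show r = r' * g
      linear_combination hr'
    · rw [e11, ← hs]
      show s = r' * b + (r' * k + x) * d₀
      linear_combination (-s) * h1 - r' * hbk - r' * hb₀ - x * hd₀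

/-- Uniqueness of the Hermite normal form. -/
theorem hnf_unique {δ δ' : SL(2, ℤ)} {t t' : ℤ × ℤ × ℤ} (ht : IsNorm t) (ht' : IsNorm t')
    (e : (δ : Matrix (Fin 2) (Fin 2) ℤ) * UT t = (δ' : Matrix (Fin 2) (Fin 2) ℤ) * UT t') :
    t = t' := by
  -- ε := δ'⁻¹ * δ satisfies ε * UT t = UT t'
  have e2 : ((δ'⁻¹ * δ : SL(2, ℤ)) : Matrix (Fin 2) (Fin 2) ℤ) * UT t = UT t' := by
    rw [Matrix.SpecialLinearGroup.coe_mul, Matrix.mul_assoc, e, ← Matrix.mul_assoc,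
      ← Matrix.SpecialLinearGroup.coe_mul, inv_mul_cancel, Matrix.SpecialLinearGroup.coe_one,
      Matrix.one_mul]
  obtain ⟨ε, hε⟩ : ∃ ε : SL(2, ℤ), ε = δ'⁻¹ * δ := ⟨_, rfl⟩
  rw [← hε] at e2
  obtain ⟨e00, e01, e10, e11⟩ := mul_UT_apply (ε : Matrix (Fin 2) (Fin 2) ℤ) t
  rw [e2] at e00 e01 e10 e11
  rw [UT_apply_zero_zero] at e00
  rw [UT_apply_zero_one] at e01
  rw [UT_apply_one_zero] at e10
  rw [UT_apply_one_one] at e11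
  obtain ⟨ha, hd, hb0, hbd⟩ := ht
  obtain ⟨ha', hd', hb0', hbd'⟩ := ht'
  have hdet := SL_det_eq ε
  have h3 : ε 1 0 = 0 := by
    rcases mul_eq_zero.mp e10.symm with h | h
    · exact h
    · omega
  rw [h3, mul_zero, sub_zero] at hdet
  rw [h3, zero_mul, zero_add] at e11
  have h00 : 0 < ε 0 0 := by
    by_contra hneg
    rw [not_lt] at hneg
    have : ε 0 0 * t.1 ≤ 0 := mul_nonpos_of_nonpos_of_nonneg hneg ha.le
    omega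
  have h00' : ε 0 0 = 1 := by
    rcases Int.eq_one_or_neg_one_of_mul_eq_one hdet with h | h
    · exact h
    · omega
  have h11' : ε 1 1 = 1 := by rw [h00', one_mul] at hdet; exact hdet
  rw [h00', one_mul] at e00
  rw [h11', one_mul] at e11
  rw [h00', one_mul] at e01
  have h01 : ε 0 1 = 0 := by
    by_contra hne
    have hdvd : t.2.2 ∣ t'.2.1 - t.2.1 := ⟨ε 0 1, by linear_combination e01⟩
    have habs : |t'.2.1 - t.2.1| < t.2.2 := by rw [abs_lt]; constructor <;> omega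
    have hz : t'.2.1 - t.2.1 = 0 := Int.eq_zero_of_abs_lt_dvd hdvd habs
    have : ε 0 1 * t.2.2 = 0 := by linear_combination hz - e01
    rcases mul_eq_zero.mp this with h | h
    · exact hne h
    · omega
  rw [h01, zero_mul, add_zero] at e01
  exact Prod.ext e00.symm (Prod.ext e01.symm e11.symm)

open Classical in
/-- The Hermite normal form `(a, b, d)` of an integer matrix of positive determinant
(junk value `(0, 0, 0)` otherwise). -/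
noncomputable def hnf (M : Matrix (Fin 2) (Fin 2) ℤ) : ℤ × ℤ × ℤ :=
  if h : 0 < M.det then (exists_hnf M h).choose else (0, 0, 0)

theorem hnf_spec (M : Matrix (Fin 2) (Fin 2) ℤ) (h : 0 < M.det) :
    ∃ δ : SL(2, ℤ), IsNorm (hnf M) ∧ M = (δ : Matrix (Fin 2) (Fin 2) ℤ) * UT (hnf M) := by
  rw [hnf, dif_pos h]
  exact (exists_hnf M h).choose_spec

theorem isNorm_hnf (M : Matrix (Fin 2) (Fin 2) ℤ) (h : 0 < M.det) : IsNorm (hnf M) := by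
  obtain ⟨δ, hn, -⟩ := hnf_spec M h
  exact hn

theorem det_SL_mul (δ : SL(2, ℤ)) (M : Matrix (Fin 2) (Fin 2) ℤ) :
    ((δ : Matrix (Fin 2) (Fin 2) ℤ) * M).det = M.det := by
  rw [Matrix.det_mul, δ.det_coe, one_mul]

theorem det_mul_SL (M : Matrix (Fin 2) (Fin 2) ℤ) (γ : SL(2, ℤ)) :
    (M * (γ : Matrix (Fin 2) (Fin 2) ℤ)).det = M.det := by
  rw [Matrix.det_mul, γ.det_coe, mul_one]

theorem hnf_eq {M : Matrix (Fin 2) (Fin 2) ℤ} {t : ℤ × ℤ × ℤ} (δ : SL(2, ℤ)) (ht : IsNorm t)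
    (e : M = (δ : Matrix (Fin 2) (Fin 2) ℤ) * UT t) : hnf M = t := by
  have hdet : 0 < M.det := by
    rw [e, det_SL_mul, det_UT]
    exact mul_pos ht.1 ht.2.1
  obtain ⟨δ', hn, e'⟩ := hnf_spec M hdet
  exact hnf_unique hn ht (e'.symm.trans e)

theorem hnf_fst_mul_snd (M : Matrix (Fin 2) (Fin 2) ℤ) (h : 0 < M.det) :
    (hnf M).1 * (hnf M).2.2 = M.det := by
  obtain ⟨δ, -, e⟩ := hnf_spec M h
  conv_rhs => rw [e, det_SL_mul, det_UT]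

theorem hnf_SL_mul (δ : SL(2, ℤ)) (M : Matrix (Fin 2) (Fin 2) ℤ) :
    hnf ((δ : Matrix (Fin 2) (Fin 2) ℤ) * M) = hnf M := by
  by_cases h : 0 < M.det
  · obtain ⟨δ', hn, e⟩ := hnf_spec M h
    refine hnf_eq (δ * δ') hn ?_
    rw [Matrix.SpecialLinearGroup.coe_mul, Matrix.mul_assoc, ← e]
  · have h' : ¬ 0 < ((δ : Matrix (Fin 2) (Fin 2) ℤ) * M).det := by rwa [det_SL_mul]
    rw [hnf, hnf, dif_neg h, dif_neg h']

theorem hnf_UT {t : ℤ × ℤ × ℤ} (ht : IsNorm t) : hnf (UT t) = t :=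
  hnf_eq 1 ht (by rw [Matrix.SpecialLinearGroup.coe_one, Matrix.one_mul])

/-- The right action of `SL(2, ℤ)` only depends on the normal form. -/
theorem hnf_mul_SL (M : Matrix (Fin 2) (Fin 2) ℤ) (h : 0 < M.det) (γ : SL(2, ℤ)) :
    hnf (M * (γ : Matrix (Fin 2) (Fin 2) ℤ)) = hnf (UT (hnf M) * (γ : Matrix (Fin 2) (Fin 2) ℤ)) := by
  obtain ⟨δ, -, e⟩ := hnf_spec M h
  conv_lhs => rw [e, Matrix.mul_assoc, hnf_SL_mul]

/-- The right action of `SL(2, ℤ)` on normalised triples. -/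
noncomputable def tact (t : ℤ × ℤ × ℤ) (γ : SL(2, ℤ)) : ℤ × ℤ × ℤ :=
  hnf (UT t * (γ : Matrix (Fin 2) (Fin 2) ℤ))

theorem isNorm_tact {t : ℤ × ℤ × ℤ} (ht : IsNorm t) (γ : SL(2, ℤ)) : IsNorm (tact t γ) := by
  refine isNorm_hnf _ ?_
  rw [det_mul_SL, det_UT]
  exact mul_pos ht.1 ht.2.1

theorem tact_spec {t : ℤ × ℤ × ℤ} (ht : IsNorm t) (γ : SL(2, ℤ)) :
    ∃ δ : SL(2, ℤ), UT t * (γ : Matrix (Fin 2) (Fin 2) ℤ) =
      (δ : Matrix (Fin 2) (Fin 2) ℤ) * UT (tact t γ) := by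
  have hdet : 0 < (UT t * (γ : Matrix (Fin 2) (Fin 2) ℤ)).det := by
    rw [det_mul_SL, det_UT]
    exact mul_pos ht.1 ht.2.1
  obtain ⟨δ, -, e⟩ := hnf_spec _ hdet
  exact ⟨δ, e⟩

theorem tact_one {t : ℤ × ℤ × ℤ} (ht : IsNorm t) : tact t 1 = t := by
  rw [tact, Matrix.SpecialLinearGroup.coe_one, Matrix.mul_one, hnf_UT ht]

theorem tact_mul {t : ℤ × ℤ × ℤ} (ht : IsNorm t) (γ γ' : SL(2, ℤ)) :
    tact t (γ * γ') = tact (tact t γ) γ' := by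
  have hdet : 0 < (UT t * (γ : Matrix (Fin 2) (Fin 2) ℤ)).det := by
    rw [det_mul_SL, det_UT]
    exact mul_pos ht.1 ht.2.1
  rw [tact, tact, tact, Matrix.SpecialLinearGroup.coe_mul, ← Matrix.mul_assoc, hnf_mul_SL _ hdet]

theorem tact_fst_mul_snd {t : ℤ × ℤ × ℤ} (ht : IsNorm t) (γ : SL(2, ℤ)) :
    (tact t γ).1 * (tact t γ).2.2 = t.1 * t.2.2 := by
  have hdet : 0 < (UT t * (γ : Matrix (Fin 2) (Fin 2) ℤ)).det := by
    rw [det_mul_SL, det_UT]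
    exact mul_pos ht.1 ht.2.1
  rw [tact, hnf_fst_mul_snd _ hdet, det_mul_SL, det_UT]

/-! ### The level matrices `[m] = !![m, 0; 0, 1]` -/

theorem isNorm_lvl {m : ℤ} (hm : 0 < m) : IsNorm (m, 0, 1) :=
  ⟨hm, one_pos, le_rfl, one_pos⟩

/-- The first entry of the normal form of `[m] * γ` is `gcd(m, γ₁₀)`. -/
theorem hnf_lvl_mul_fst {m : ℤ} (hm : 0 < m) (γ : SL(2, ℤ)) :
    (tact (m, 0, 1) γ).1 = (Int.gcd m (γ 1 0) : ℤ) := by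
  obtain ⟨δ, e⟩ := tact_spec (isNorm_lvl hm) γ
  have hn := isNorm_tact (isNorm_lvl hm) γ
  obtain ⟨l00, l01, l10, l11⟩ := UT_mul_apply (m, 0, 1) (γ : Matrix (Fin 2) (Fin 2) ℤ)
  obtain ⟨r00, r01, r10, r11⟩ := mul_UT_apply (δ : Matrix (Fin 2) (Fin 2) ℤ) (tact (m, 0, 1) γ)
  rw [← e] at r00 r10
  rw [l00] at r00
  rw [l10] at r10
  simp only [zero_mul, add_zero, one_mul] at r00 r10
  have hγ := SL_det_eq γ
  have hδ := SL_det_eq δ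
  obtain ⟨a, ha⟩ : ∃ a, a = (tact (m, 0, 1) γ).1 := ⟨_, rfl⟩
  rw [← ha] at r00 r10 ⊢
  have hapos : 0 < a := ha ▸ hn.1
  -- a ∣ m and a ∣ γ 1 0
  have h1 : a ∣ γ 1 0 := ⟨δ 1 0, by rw [r10]; ring⟩
  have h2 : a ∣ m := by
    obtain ⟨c, hc⟩ := h1
    exact ⟨δ 0 0 * γ 1 1 - m * γ 0 1 * c,
      by linear_combination (-m) * hγ + γ 1 1 * r00 - m * γ 0 1 * hc⟩
  have h3 : a ∣ (Int.gcd m (γ 1 0) : ℤ) := Int.dvd_coe_gcd h2 h1
  have h4 : (Int.gcd m (γ 1 0) : ℤ) ∣ a := by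
    obtain ⟨u, hu⟩ := Int.gcd_dvd_left m (γ 1 0)
    obtain ⟨v, hv⟩ := Int.gcd_dvd_right m (γ 1 0)
    refine ⟨u * γ 0 0 * δ 1 1 - v * δ 0 1, ?_⟩
    linear_combination (-a) * hδ - δ 1 1 * r00 + δ 0 1 * r10 + γ 0 0 * δ 1 1 * hu - δ 0 1 * hv
  exact Int.dvd_antisymm hapos.le (Int.natCast_nonneg _) h3 h4

/-- If `m ∣ κ₁₀` then `[m] * κ ∈ SL(2, ℤ) * [m]`. -/
theorem hnf_lvl_mul_of_dvd {m : ℤ} (κ : SL(2, ℤ)) (hκ : m ∣ κ 1 0) (γ : SL(2, ℤ)) :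
    tact (m, 0, 1) (κ * γ) = tact (m, 0, 1) γ := by
  obtain ⟨c, hc⟩ := hκ
  have hdet := SL_det_eq κ
  have hdetε : (!![κ 0 0, m * κ 0 1; c, κ 1 1] : Matrix (Fin 2) (Fin 2) ℤ).det = 1 := by
    rw [Matrix.det_fin_two_of]
    linear_combination hdet + κ 0 1 * hc
  obtain ⟨ε, hε⟩ : ∃ ε : SL(2, ℤ),
      (ε : Matrix (Fin 2) (Fin 2) ℤ) = !![κ 0 0, m * κ 0 1; c, κ 1 1] := ⟨⟨_, hdetε⟩, rfl⟩
  have key : UT (m, 0, 1) * (κ : Matrix (Fin 2) (Fin 2) ℤ) =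
      (ε : Matrix (Fin 2) (Fin 2) ℤ) * UT (m, 0, 1) := by
    obtain ⟨l00, l01, l10, l11⟩ := UT_mul_apply (m, 0, 1) (κ : Matrix (Fin 2) (Fin 2) ℤ)
    obtain ⟨r00, r01, r10, r11⟩ := mul_UT_apply
      (!![κ 0 0, m * κ 0 1; c, κ 1 1] : Matrix (Fin 2) (Fin 2) ℤ) (m, 0, 1)
    rw [hε]
    refine ext2 ?_ ?_ ?_ ?_
    · rw [l00, r00]
      show m * κ 0 0 + 0 * κ 1 0 = κ 0 0 * m
      ring
    · rw [l01, r01]
      show m * κ 0 1 + 0 * κ 1 1 = κ 0 0 * 0 + m * κ 0 1 * 1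
      ring
    · rw [l10, r10]
      show 1 * κ 1 0 = c * m
      linear_combination hc
    · rw [l11, r11]
      show 1 * κ 1 1 = c * 0 + κ 1 1 * 1
      ring
  rw [tact, tact, Matrix.SpecialLinearGroup.coe_mul, ← Matrix.mul_assoc, key, Matrix.mul_assoc,
    hnf_SL_mul]

/-- If `[m] * γ` and `[m] * γ'` have the same normal form then `m ∣ (γ' * γ⁻¹)₁₀`. -/
theorem dvd_of_hnf_lvl_eq {m : ℤ} (hm : 0 < m) (γ γ' : SL(2, ℤ))
    (h : tact (m, 0, 1) γ = tact (m, 0, 1) γ') : m ∣ (γ' * γ⁻¹) 1 0 := by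
  obtain ⟨δ, e⟩ := tact_spec (isNorm_lvl hm) γ
  obtain ⟨δ', e'⟩ := tact_spec (isNorm_lvl hm) γ'
  rw [← h] at e'
  -- [m] γ' γ⁻¹ = δ' δ⁻¹ [m]
  have key : UT (m, 0, 1) * ((γ' * γ⁻¹ : SL(2, ℤ)) : Matrix (Fin 2) (Fin 2) ℤ) =
      ((δ' * δ⁻¹ : SL(2, ℤ)) : Matrix (Fin 2) (Fin 2) ℤ) * UT (m, 0, 1) := by
    have e3 : UT (tact (m, 0, 1) γ) =
        ((δ⁻¹ : SL(2, ℤ)) : Matrix (Fin 2) (Fin 2) ℤ) * (UT (m, 0, 1) * (γ : Matrix (Fin 2) (Fin 2) ℤ)) := by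
      rw [e, ← Matrix.mul_assoc, ← Matrix.SpecialLinearGroup.coe_mul, inv_mul_cancel,
        Matrix.SpecialLinearGroup.coe_one, Matrix.one_mul]
    rw [Matrix.SpecialLinearGroup.coe_mul, ← Matrix.mul_assoc, e', e3]
    simp only [Matrix.mul_assoc, Matrix.SpecialLinearGroup.coe_mul]
    rw [← Matrix.SpecialLinearGroup.coe_mul γ γ⁻¹, mul_inv_cancel, Matrix.SpecialLinearGroup.coe_one,
      Matrix.mul_one]
  obtain ⟨l00, l01, l10, l11⟩ := UT_mul_apply (m, 0, 1)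
    ((γ' * γ⁻¹ : SL(2, ℤ)) : Matrix (Fin 2) (Fin 2) ℤ)
  obtain ⟨r00, r01, r10, r11⟩ := mul_UT_apply
    ((δ' * δ⁻¹ : SL(2, ℤ)) : Matrix (Fin 2) (Fin 2) ℤ) (m, 0, 1)
  rw [key] at l10
  rw [r10] at l10
  simp only [one_mul] at l10
  exact ⟨(δ' * δ⁻¹ : SL(2, ℤ)) 1 0, by rw [← l10]; ring⟩

/-! ### Cosets of `Γ₀(N)` -/

open CongruenceSubgroup

theorem mem_Gamma0_iff_dvd {N : ℕ} (A : SL(2, ℤ)) : A ∈ Gamma0 N ↔ (N : ℤ) ∣ A 1 0 := by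
  rw [Gamma0_mem, ZMod.intCast_zmod_eq_zero_iff_dvd]

/-- The triple attached to a coset `x = g Γ₀(N)` and a level `m` (meant for `m ∣ N`):
the normal form of `[m] * g⁻¹`. -/
noncomputable def tri (N : ℕ) (x : SL(2, ℤ) ⧸ Gamma0 N) (m : ℤ) : ℤ × ℤ × ℤ :=
  tact (m, 0, 1) (x.out)⁻¹

theorem tri_mk {N : ℕ} {m : ℤ} (hm : m ∣ (N : ℤ)) (g : SL(2, ℤ)) :
    tri N (QuotientGroup.mk g) m = tact (m, 0, 1) g⁻¹ := by
  obtain ⟨κ, hκ⟩ := QuotientGroup.mk_out_eq_mul (Gamma0 N) g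
  rw [tri, hκ, _root_.mul_inv_rev]
  refine hnf_lvl_mul_of_dvd _ ?_ _
  have h1 : ((κ : SL(2, ℤ))⁻¹) ∈ Gamma0 N := inv_mem κ.2
  exact hm.trans ((mem_Gamma0_iff_dvd _).mp h1)

theorem isNorm_tri (N : ℕ) (x : SL(2, ℤ) ⧸ Gamma0 N) {m : ℤ} (hm : 0 < m) :
    IsNorm (tri N x m) :=
  isNorm_tact (isNorm_lvl hm) _

theorem tri_fst_mul_snd (N : ℕ) (x : SL(2, ℤ) ⧸ Gamma0 N) {m : ℤ} (hm : 0 < m) :
    (tri N x m).1 * (tri N x m).2.2 = m := by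
  rw [tri, tact_fst_mul_snd (isNorm_lvl hm)]
  simp

theorem tri_fst (N : ℕ) (x : SL(2, ℤ) ⧸ Gamma0 N) {m : ℤ} (hm : 0 < m) :
    (tri N x m).1 = (Int.gcd m ((x.out)⁻¹ 1 0) : ℤ) :=
  hnf_lvl_mul_fst hm _

/-- For `m ∣ N` the first entry of the `m`-triple is `gcd (m, a_N)`. -/
theorem tri_fst_eq_gcd {N : ℕ} (hN : 0 < N) (x : SL(2, ℤ) ⧸ Gamma0 N) {m : ℤ} (hm : 0 < m)
    (hmN : m ∣ (N : ℤ)) : (tri N x m).1 = (Int.gcd m (tri N x N).1 : ℤ) := by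
  rw [tri_fst N x hm, tri_fst N x (by exact_mod_cast hN : (0 : ℤ) < N)]
  congr 1
  apply Nat.dvd_antisymm
  · refine Int.dvd_gcd (Int.gcd_dvd_left _ _) ?_
    exact Int.dvd_coe_gcd ((Int.gcd_dvd_left _ _).trans hmN) (Int.gcd_dvd_right _ _)
  · refine Int.dvd_gcd (Int.gcd_dvd_left _ _) ?_
    exact (Int.gcd_dvd_right _ _).trans (Int.gcd_dvd_right _ _)

/-- The `N`-triple determines the coset. -/
theorem tri_injective {N : ℕ} (hN : 0 < N) :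
    Function.Injective (fun x : SL(2, ℤ) ⧸ Gamma0 N => tri N x N) := by
  intro x y h
  have h1 := dvd_of_hnf_lvl_eq (by exact_mod_cast hN : (0 : ℤ) < N) _ _ h
  rw [inv_inv] at h1
  have h2 : (y.out)⁻¹ * x.out ∈ Gamma0 N := (mem_Gamma0_iff_dvd _).mpr h1
  have h3 : (QuotientGroup.mk y.out : SL(2, ℤ) ⧸ Gamma0 N) = QuotientGroup.mk x.out :=
    QuotientGroup.eq.mpr h2
  rw [QuotientGroup.out_eq', QuotientGroup.out_eq'] at h3
  exact h3.symm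

/-- The triples of the identity coset (the cusp `∞`). -/
theorem tri_one {N : ℕ} {m : ℤ} (hm : 0 < m) (hmN : m ∣ (N : ℤ)) :
    tri N (QuotientGroup.mk 1) m = (m, 0, 1) := by
  rw [tri_mk hmN, inv_one, tact_one (isNorm_lvl hm)]

/-- The action of `SL(2, ℤ)` on cosets corresponds to the right action on triples. -/
theorem tri_smul {N : ℕ} {m : ℤ} (hm : 0 < m) (hmN : m ∣ (N : ℤ)) (γ : SL(2, ℤ))
    (x : SL(2, ℤ) ⧸ Gamma0 N) : tri N (γ⁻¹ • x) m = tact (tri N x m) γ := by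
  obtain ⟨g, rfl⟩ := QuotientGroup.mk_surjective x
  rw [show γ⁻¹ • (QuotientGroup.mk g : SL(2, ℤ) ⧸ Gamma0 N) = QuotientGroup.mk (γ⁻¹ * g) from rfl,
    tri_mk hmN, tri_mk hmN, _root_.mul_inv_rev, inv_inv, tact_mul (isNorm_lvl hm)]

/-- Only the identity coset has `a_N = N`. -/
theorem tri_fst_eq_iff {N : ℕ} (hN : 0 < N) (x : SL(2, ℤ) ⧸ Gamma0 N) :
    (tri N x N).1 = N ↔ x = QuotientGroup.mk 1 := by
  have hN' : (0 : ℤ) < N := by exact_mod_cast hN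
  constructor
  · intro h
    apply tri_injective hN
    show tri N x N = tri N (QuotientGroup.mk 1) N
    rw [tri_one hN' dvd_rfl]
    have h1 := tri_fst_mul_snd N x hN'
    have hn := isNorm_tri N x hN'
    rw [h] at h1
    have h2 : (tri N x N).2.2 = 1 := by
      have : (N : ℤ) * (tri N x N).2.2 = N * 1 := by rw [h1, mul_one]
      exact mul_left_cancel₀ hN'.ne' this
    have h3 : (tri N x N).2.1 = 0 := by
      obtain ⟨-, -, h0, hlt⟩ := hn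
      omega
    exact Prod.ext h (Prod.ext h3 h2)
  · rintro rfl
    rw [tri_one hN' dvd_rfl]

/-- For a coset different from the identity coset, `a_N` is a proper divisor of `N`. -/
theorem tri_fst_dvd {N : ℕ} (hN : 0 < N) (x : SL(2, ℤ) ⧸ Gamma0 N) :
    (tri N x N).1 ∣ (N : ℤ) :=
  ⟨_, (tri_fst_mul_snd N x (by exact_mod_cast hN : (0 : ℤ) < N)).symm⟩

end Fermat.Agent.Lib.CuspFamily
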